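/-
S18 / core 2, K2-CH sub-leaf CH-D (helper95): the generic integral-closure package.

`A₀` a noetherian integrally closed domain (e.g. a DVR), `F` a field over `A₀`, `x : F`
transcendental over `A₀` with `F / K₀(x)` finite separable (`K₀ = Frac A₀`).  For the "chart"
`C` = integral closure of `A₀[x]` in `F`:

* `chart_finite`             : `Module.Finite A₀[X] C`
* `chart_torsionFree`        : `Module.IsTorsionFree A₀[X] C`
* `chart_isIntegrallyClosed` : `IsIntegrallyClosed C`   (no hypothesis at all: `isIntegrallyClosed_chart`)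
* `chart_isFractionRing`     : `IsFractionRing C F`
* `chart_hfin`, `chart_hfrac`: the `kummer_cech` / `cech_charts` shapes of finiteness, `Frac C = F`.

Three layers:
* section `Package`: `K₀(x)` is an ABSTRACT field `K` with `IsFractionRing A₀[X] K`, the chart is
  ANY `Subalgebra A₀ F` with the right carrier and ANY `A₀[X]`-algebra structure `X ↦ x`;
* section `Sub`: `K₀(x) = Subfield.closure (range (algebraMap A₀ F) ∪ {x})` and
  `C = (integralClosure (Algebra.adjoin A₀ {x}) F).restrictScalars A₀`
  (the literal shapes of helper19's `Core2.lean`: `ratSub`, `chart`);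
* section `Adjoin`: `K₀(x) = K₀⟮x⟯` (`IntermediateField.adjoin`) for a given fraction field `K₀`.

Mathlib only.
-/
import Mathlib

set_option autoImplicit false
set_option linter.style.haveILetI false
set_option linter.unusedSectionVars false

open Polynomial IntermediateField

noncomputable section

namespace Fermat.Agent.S18.H95

/-! ### `A₀[X] → F`, `X ↦ x` -/

section Bridge

variable {A₀ : Type*} [CommRing A₀] {F : Type*} [Field F] [Algebra A₀ F] (x : F)

/-- The `A₀[X]`-algebra structure on `F`: `X ↦ x`. -/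
abbrev polyAlgF : Algebra A₀[X] F :=
  (Polynomial.aeval x : A₀[X] →ₐ[A₀] F).toRingHom.toAlgebra

theorem polyAlgF_apply (p : A₀[X]) :
    letI := polyAlgF (A₀ := A₀) x
    algebraMap A₀[X] F p = Polynomial.aeval x p := rfl

theorem aeval_mem_adjoin (p : A₀[X]) :
    Polynomial.aeval x p ∈ Algebra.adjoin A₀ ({x} : Set F) := by
  rw [Algebra.adjoin_singleton_eq_range_aeval]; exact ⟨p, rfl⟩

/-- Integrality over the subalgebra `A₀[x] ⊆ F` is integrality over `A₀[X]` (via `X ↦ x`). -/
theorem isIntegral_adjoin_iff (y : F) :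
    IsIntegral (Algebra.adjoin A₀ ({x} : Set F)) y ↔
      (letI := polyAlgF (A₀ := A₀) x; IsIntegral A₀[X] y) := by
  let f : A₀[X] →+* Algebra.adjoin A₀ ({x} : Set F) :=
    ((Polynomial.aeval x : A₀[X] →ₐ[A₀] F).codRestrict (Algebra.adjoin A₀ {x})
      (aeval_mem_adjoin x)).toRingHom
  have hf : Function.Surjective f := by
    rintro ⟨z, hz⟩
    rw [Algebra.adjoin_singleton_eq_range_aeval] at hz
    obtain ⟨p, rfl⟩ := hz
    exact ⟨p, rfl⟩
  have hcomp : (algebraMap (Algebra.adjoin A₀ ({x} : Set F)) F).comp f =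
      (Polynomial.aeval x : A₀[X] →ₐ[A₀] F).toRingHom := rfl
  constructor
  · rintro ⟨p, hp, hpy⟩
    obtain ⟨q, hq, -, hqm⟩ := Polynomial.lifts_and_degree_eq_and_monic
      ((Polynomial.mem_lifts p).2 (Polynomial.map_surjective f hf p)) hp
    refine ⟨q, hqm, ?_⟩
    change Polynomial.eval₂ (Polynomial.aeval x : A₀[X] →ₐ[A₀] F).toRingHom y q = 0
    rw [← hcomp, ← Polynomial.eval₂_map, hq]
    exact hpy
  · rintro ⟨q, hqm, hqy⟩
    refine ⟨q.map f, hqm.map f, ?_⟩
    rw [Polynomial.eval₂_map, hcomp]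
    exact hqy

/-- The integral closure of `A₀[x]` in a field is integrally closed (no hypothesis). -/
theorem isIntegrallyClosed_chart :
    IsIntegrallyClosed
      ↥((integralClosure (Algebra.adjoin A₀ ({x} : Set F)) F).restrictScalars A₀) := by
  haveI : IsIntegrallyClosed ↥(integralClosure (Algebra.adjoin A₀ ({x} : Set F)) F) :=
    IsIntegrallyClosed.of_isIntegrallyClosedIn _ F
  exact this

end Bridge

/-! ### The package over an abstract `K = Frac A₀[X]` -/

section Package

variable {A₀ : Type*} [CommRing A₀]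
  {F : Type*} [Field F] [Algebra A₀ F] (x : F)
  (K : Type*) [Field K] [Algebra A₀[X] K] [IsFractionRing A₀[X] K] [Algebra K F]
  (hK : ∀ p : A₀[X], algebraMap K F (algebraMap A₀[X] K p) = Polynomial.aeval x p)
  (C : Subalgebra A₀ F)
  (hC : ∀ y : F, y ∈ C ↔ IsIntegral (Algebra.adjoin A₀ ({x} : Set F)) y)
  [Algebra A₀[X] ↥C]
  (hX : ∀ p : A₀[X], ((algebraMap A₀[X] ↥C p : ↥C) : F) = Polynomial.aeval x p)

include hK in
theorem poly_tower : letI := polyAlgF (A₀ := A₀) x; IsScalarTower A₀[X] K F := by
  letI := polyAlgF (A₀ := A₀) x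
  exact IsScalarTower.of_algebraMap_eq fun p => (hK p).symm

include hK in
theorem aeval_injective_of_fractionRing :
    Function.Injective (Polynomial.aeval x : A₀[X] →ₐ[A₀] F) := by
  intro p q hpq
  apply IsFractionRing.injective A₀[X] K
  apply (algebraMap K F).injective
  rw [hK, hK]; exact hpq

include hX in
theorem chart_tower : letI := polyAlgF (A₀ := A₀) x; IsScalarTower A₀[X] ↥C F := by
  letI := polyAlgF (A₀ := A₀) x
  exact IsScalarTower.of_algebraMap_eq fun p => (hX p).symm

include hC in
theorem chart_isIntegralClosure :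
    letI := polyAlgF (A₀ := A₀) x; IsIntegralClosure (↥C) A₀[X] F := by
  letI := polyAlgF (A₀ := A₀) x
  refine ⟨Subtype.val_injective, fun {y} => ?_⟩
  rw [← isIntegral_adjoin_iff x y, ← hC]
  exact ⟨fun h => ⟨⟨y, h⟩, rfl⟩, by rintro ⟨c, rfl⟩; exact c.2⟩

include hC in
theorem chart_mem_self : x ∈ C :=
  (hC x).2 (isIntegral_algebraMap (R := Algebra.adjoin A₀ ({x} : Set F))
    (x := ⟨x, Algebra.subset_adjoin (Set.mem_singleton x)⟩))

include hK hX in
theorem chart_torsionFree : Module.IsTorsionFree A₀[X] ↥C := by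
  haveI : Nontrivial A₀ := (algebraMap A₀ F).domain_nontrivial
  refine ⟨fun r hr c₁ c₂ h => ?_⟩
  have hr0 : r ≠ 0 := hr.ne_zero
  have hxr : Polynomial.aeval x r ≠ 0 := fun h0 =>
    hr0 (aeval_injective_of_fractionRing x K hK (h0.trans (map_zero _).symm))
  have h' := congrArg (fun c : ↥C => (c : F)) h
  simp only [Algebra.smul_def, Subalgebra.coe_mul, hX] at h'
  exact Subtype.ext (mul_left_cancel₀ hxr h')

variable [IsDomain A₀] [FiniteDimensional K F]

include hK hC hX in
theorem chart_isFractionRing : IsFractionRing ↥C F := by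
  letI := polyAlgF (A₀ := A₀) x
  haveI := poly_tower x K hK
  haveI := chart_tower x C hX
  haveI := chart_isIntegralClosure x C hC
  exact IsIntegralClosure.isFractionRing_of_finite_extension A₀[X] K F ↥C

include hK hC hX in
theorem chart_isIntegrallyClosed : IsIntegrallyClosed ↥C := by
  letI := polyAlgF (A₀ := A₀) x
  haveI := chart_tower x C hX
  haveI := chart_isIntegralClosure x C hC
  haveI := chart_isFractionRing x K hK C hC hX
  haveI : Algebra.IsIntegral A₀[X] ↥C := IsIntegralClosure.isIntegral_algebra A₀[X] F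
  refine (isIntegrallyClosed_iff F).2 fun {y} hy => ?_
  exact (IsIntegralClosure.isIntegral_iff (A := ↥C) (R := A₀[X]) (B := F)).1
    (isIntegral_trans (R := A₀[X]) (A := ↥C) y hy)

include hK hC hX in
/-- The `kummer_cech` shape of `Frac C = F`. -/
theorem chart_hfrac : ∀ y : F, ∃ a ∈ C, ∃ b ∈ C, b ≠ 0 ∧ y = a / b := by
  haveI := chart_isFractionRing x K hK C hC hX
  intro y
  obtain ⟨a, b, hb, hab⟩ := IsFractionRing.div_surjective (A := ↥C) y
  refine ⟨a, a.2, b, b.2, ?_, hab.symm⟩
  intro h0
  exact nonZeroDivisors.ne_zero hb (Subtype.ext h0)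

variable [IsIntegrallyClosed A₀] [IsNoetherianRing A₀] [Algebra.IsSeparable K F]

include hK hC hX in
theorem chart_finite : Module.Finite A₀[X] ↥C := by
  letI := polyAlgF (A₀ := A₀) x
  haveI := poly_tower x K hK
  haveI := chart_tower x C hX
  haveI := chart_isIntegralClosure x C hC
  exact IsIntegralClosure.finite A₀[X] K F ↥C

include hK hC hX in
/-- The `kummer_cech` shape of finiteness. -/
theorem chart_hfin : ∃ s : Finset F, (C : Set F) =
    Submodule.span (Algebra.adjoin A₀ ({x} : Set F)) (s : Set F) := by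
  classical
  haveI := chart_finite x K hK C hC hX
  obtain ⟨t, ht⟩ := (Module.finite_def (R := A₀[X]) (M := ↥C)).1 inferInstance
  refine ⟨t.image (fun c : ↥C => (c : F)), ?_⟩
  have hadj : Algebra.adjoin A₀ ({x} : Set F) ≤ C :=
    Algebra.adjoin_le (Set.singleton_subset_iff.2 (chart_mem_self x C hC))
  ext y
  constructor
  · intro hy
    have hmem : (⟨y, hy⟩ : ↥C) ∈ Submodule.span A₀[X] (t : Set ↥C) := by rw [ht]; trivial
    have key : ∀ c : ↥C, c ∈ Submodule.span A₀[X] (t : Set ↥C) →
        (c : F) ∈ Submodule.span (Algebra.adjoin A₀ ({x} : Set F))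
          ((t.image (fun c : ↥C => (c : F)) : Finset F) : Set F) := by
      intro c hc
      induction hc using Submodule.span_induction with
      | mem c hc =>
        exact Submodule.subset_span (Finset.mem_coe.2 (Finset.mem_image_of_mem _ hc))
      | zero => exact Submodule.zero_mem _
      | add c d _ _ hc hd => exact Submodule.add_mem _ hc hd
      | smul p c _ hc =>
        have h1 : ((p • c : ↥C) : F) =
            (⟨Polynomial.aeval x p, aeval_mem_adjoin x p⟩ : Algebra.adjoin A₀ ({x} : Set F)) •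
              (c : F) := by
          rw [Algebra.smul_def, Subalgebra.coe_mul, hX]; rfl
        rw [h1]
        exact Submodule.smul_mem _ _ hc
    exact key ⟨y, hy⟩ hmem
  · intro hy
    induction hy using Submodule.span_induction with
    | mem y hy =>
      obtain ⟨c, -, rfl⟩ := Finset.mem_image.1 (Finset.mem_coe.1 hy)
      exact c.2
    | zero => exact C.zero_mem
    | add y z _ _ hy hz => exact C.add_mem hy hz
    | smul a y _ hy => exact C.mul_mem (hadj a.2) hy

end Package

/-! ### The canonical chart and its `A₀[X]`-algebra structure -/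

section Canonical

variable {A₀ : Type*} [CommRing A₀] {F : Type*} [Field F] [Algebra A₀ F] (x : F)

/-- `x` as an element of the canonical chart. -/
theorem self_mem_integralClosure :
    x ∈ (integralClosure (Algebra.adjoin A₀ ({x} : Set F)) F).restrictScalars A₀ :=
  isIntegral_algebraMap (R := Algebra.adjoin A₀ ({x} : Set F))
    (x := ⟨x, Algebra.subset_adjoin (Set.mem_singleton x)⟩)

/-- The `A₀[X]`-algebra structure `X ↦ x` on the canonical chart (use with `letI`). -/
abbrev chartAlgebra :
    Algebra A₀[X] ↥((integralClosure (Algebra.adjoin A₀ ({x} : Set F)) F).restrictScalars A₀) :=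
  (Polynomial.aeval (⟨x, self_mem_integralClosure x⟩ :
    ↥((integralClosure (Algebra.adjoin A₀ ({x} : Set F)) F).restrictScalars A₀)) :
      A₀[X] →ₐ[A₀] _).toRingHom.toAlgebra

theorem chartAlgebra_apply (p : A₀[X]) :
    letI := chartAlgebra (A₀ := A₀) x
    ((algebraMap A₀[X]
      ↥((integralClosure (Algebra.adjoin A₀ ({x} : Set F)) F).restrictScalars A₀) p : _) : F) =
        Polynomial.aeval x p := by
  letI := chartAlgebra (A₀ := A₀) x
  change ((Polynomial.aeval (⟨x, self_mem_integralClosure x⟩ :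
    ↥((integralClosure (Algebra.adjoin A₀ ({x} : Set F)) F).restrictScalars A₀)) p : _) : F) = _
  exact Polynomial.aeval_subalgebra_coe p _ ⟨x, self_mem_integralClosure x⟩

end Canonical

/-! ### `K₀(x)` as `Subfield.closure (range (algebraMap A₀ F) ∪ {x})` (helper19's `ratSub`) -/

section Sub

variable {A₀ : Type*} [CommRing A₀] {F : Type*} [Field F] [Algebra A₀ F] (x : F)

theorem aeval_mem_closure (p : A₀[X]) :
    Polynomial.aeval x p ∈ Subfield.closure (Set.range (algebraMap A₀ F) ∪ {x}) := by
  have h := aeval_mem_adjoin x p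
  rw [← Subalgebra.mem_toSubring, Algebra.adjoin_eq_ring_closure] at h
  exact Subfield.subring_closure_le _ h

/-- The `A₀[X]`-algebra structure on `K₀(x) ⊆ F` (as a subfield): `X ↦ x`. -/
abbrev polyAlgSub : Algebra A₀[X] ↥(Subfield.closure (Set.range (algebraMap A₀ F) ∪ {x})) :=
  (((Polynomial.aeval x : A₀[X] →ₐ[A₀] F) : A₀[X] →+* F).codRestrict
    (Subfield.closure (Set.range (algebraMap A₀ F) ∪ {x})) (aeval_mem_closure x)).toAlgebra

theorem polyAlgSub_apply (p : A₀[X]) :
    letI := polyAlgSub (A₀ := A₀) x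
    algebraMap ↥(Subfield.closure (Set.range (algebraMap A₀ F) ∪ {x})) F
      (algebraMap A₀[X] ↥(Subfield.closure (Set.range (algebraMap A₀ F) ∪ {x})) p) =
        Polynomial.aeval x p := rfl

/-- `K₀(x)` (as a subfield of `F`) is the fraction field of `A₀[X]` (`X ↦ x`) when `x` is
transcendental over `A₀`. -/
theorem isFractionRing_sub (hx : Transcendental A₀ x) :
    letI := polyAlgSub (A₀ := A₀) x
    IsFractionRing A₀[X] ↥(Subfield.closure (Set.range (algebraMap A₀ F) ∪ {x})) := by
  letI := polyAlgSub (A₀ := A₀) x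
  haveI : FaithfulSMul A₀[X] ↥(Subfield.closure (Set.range (algebraMap A₀ F) ∪ {x})) := by
    rw [faithfulSMul_iff_algebraMap_injective, injective_iff_map_eq_zero]
    intro p hp
    have h1 := congrArg (fun z : ↥(Subfield.closure (Set.range (algebraMap A₀ F) ∪ {x})) =>
      (z : F)) hp
    exact (transcendental_iff.1 hx) p h1
  refine IsFractionRing.of_field _ _ fun z => ?_
  obtain ⟨a, ha, b, hb, hab⟩ := Subfield.mem_closure_iff.1 z.2
  rw [← Algebra.adjoin_eq_ring_closure, Subalgebra.mem_toSubring,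
    Algebra.adjoin_singleton_eq_range_aeval] at ha hb
  obtain ⟨p, rfl⟩ := ha
  obtain ⟨q, rfl⟩ := hb
  exact ⟨p, q, Subtype.ext hab.symm⟩

variable [IsDomain A₀] [IsIntegrallyClosed A₀] [IsNoetherianRing A₀] [CharZero A₀]
  [FaithfulSMul A₀ F]

/-- CH-D `chart_fin` of `Core2.lean` (literal shape after unfolding `ratSub`, `chart`). -/
theorem chart_fin_sub (htr : Transcendental A₀ x)
    (hfin : Module.Finite ↥(Subfield.closure (Set.range (algebraMap A₀ F) ∪ {x})) F) :
    ∃ s : Finset F,
      (((integralClosure (Algebra.adjoin A₀ ({x} : Set F)) F).restrictScalars A₀ :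
        Subalgebra A₀ F) : Set F) =
        Submodule.span (Algebra.adjoin A₀ ({x} : Set F)) (s : Set F) := by
  letI := polyAlgSub (A₀ := A₀) x
  letI := chartAlgebra (A₀ := A₀) x
  haveI := isFractionRing_sub x htr
  haveI : CharZero F := charZero_of_injective_algebraMap (FaithfulSMul.algebraMap_injective A₀ F)
  haveI : FiniteDimensional ↥(Subfield.closure (Set.range (algebraMap A₀ F) ∪ {x})) F := hfin
  exact chart_hfin x ↥(Subfield.closure (Set.range (algebraMap A₀ F) ∪ {x}))
    (polyAlgSub_apply x) _ (fun _ => Iff.rfl) (chartAlgebra_apply x)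

/-- CH-D `chart_frac` of `Core2.lean` (literal shape after unfolding `ratSub`, `chart`). -/
theorem chart_frac_sub (htr : Transcendental A₀ x)
    (hfin : Module.Finite ↥(Subfield.closure (Set.range (algebraMap A₀ F) ∪ {x})) F) :
    ∀ y : F, ∃ a ∈ (integralClosure (Algebra.adjoin A₀ ({x} : Set F)) F).restrictScalars A₀,
      ∃ b ∈ (integralClosure (Algebra.adjoin A₀ ({x} : Set F)) F).restrictScalars A₀,
        b ≠ 0 ∧ y = a / b := by
  letI := polyAlgSub (A₀ := A₀) x
  letI := chartAlgebra (A₀ := A₀) x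
  haveI := isFractionRing_sub x htr
  haveI : CharZero F := charZero_of_injective_algebraMap (FaithfulSMul.algebraMap_injective A₀ F)
  haveI : FiniteDimensional ↥(Subfield.closure (Set.range (algebraMap A₀ F) ∪ {x})) F := hfin
  exact chart_hfrac x ↥(Subfield.closure (Set.range (algebraMap A₀ F) ∪ {x}))
    (polyAlgSub_apply x) _ (fun _ => Iff.rfl) (chartAlgebra_apply x)

/-- The canonical chart is a finite `A₀[X]`-module (for `theoremD`). -/
theorem chart_finite_sub (htr : Transcendental A₀ x)
    (hfin : Module.Finite ↥(Subfield.closure (Set.range (algebraMap A₀ F) ∪ {x})) F) :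
    letI := chartAlgebra (A₀ := A₀) x
    Module.Finite A₀[X]
      ↥((integralClosure (Algebra.adjoin A₀ ({x} : Set F)) F).restrictScalars A₀) := by
  letI := polyAlgSub (A₀ := A₀) x
  letI := chartAlgebra (A₀ := A₀) x
  haveI := isFractionRing_sub x htr
  haveI : CharZero F := charZero_of_injective_algebraMap (FaithfulSMul.algebraMap_injective A₀ F)
  haveI : FiniteDimensional ↥(Subfield.closure (Set.range (algebraMap A₀ F) ∪ {x})) F := hfin
  exact chart_finite x ↥(Subfield.closure (Set.range (algebraMap A₀ F) ∪ {x}))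
    (polyAlgSub_apply x) _ (fun _ => Iff.rfl) (chartAlgebra_apply x)

/-- The canonical chart is a torsion-free `A₀[X]`-module (for `theoremD`). -/
theorem chart_torsionFree_sub (htr : Transcendental A₀ x) :
    letI := chartAlgebra (A₀ := A₀) x
    Module.IsTorsionFree A₀[X]
      ↥((integralClosure (Algebra.adjoin A₀ ({x} : Set F)) F).restrictScalars A₀) := by
  letI := polyAlgSub (A₀ := A₀) x
  letI := chartAlgebra (A₀ := A₀) x
  haveI := isFractionRing_sub x htr
  exact chart_torsionFree x ↥(Subfield.closure (Set.range (algebraMap A₀ F) ∪ {x}))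
    (polyAlgSub_apply x) _ (chartAlgebra_apply x)

/-- `Frac C = F` for the canonical chart. -/
theorem chart_isFractionRing_sub (htr : Transcendental A₀ x)
    (hfin : Module.Finite ↥(Subfield.closure (Set.range (algebraMap A₀ F) ∪ {x})) F) :
    IsFractionRing
      ↥((integralClosure (Algebra.adjoin A₀ ({x} : Set F)) F).restrictScalars A₀) F := by
  letI := polyAlgSub (A₀ := A₀) x
  letI := chartAlgebra (A₀ := A₀) x
  haveI := isFractionRing_sub x htr
  haveI : CharZero F := charZero_of_injective_algebraMap (FaithfulSMul.algebraMap_injective A₀ F)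
  haveI : FiniteDimensional ↥(Subfield.closure (Set.range (algebraMap A₀ F) ∪ {x})) F := hfin
  exact chart_isFractionRing x ↥(Subfield.closure (Set.range (algebraMap A₀ F) ∪ {x}))
    (polyAlgSub_apply x) _ (fun _ => Iff.rfl) (chartAlgebra_apply x)

end Sub

/-! ### `K₀(x)` as `K₀⟮x⟯` for a given fraction field `K₀` of `A₀` -/

section Adjoin

variable {A₀ : Type*} [CommRing A₀]
  {K₀ : Type*} [Field K₀] [Algebra A₀ K₀]
  {F : Type*} [Field F] [Algebra K₀ F] [Algebra A₀ F] [IsScalarTower A₀ K₀ F]
  (x : F)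

theorem adjoin_tower : IsScalarTower A₀ K₀⟮x⟯ F :=
  IsScalarTower.of_algebraMap_eq fun _ => rfl

/-- The `A₀[X]`-algebra structure on `K₀(x)`: `X ↦ x`. -/
abbrev polyAlgK : Algebra A₀[X] K₀⟮x⟯ :=
  (Polynomial.aeval (AdjoinSimple.gen K₀ x) : A₀[X] →ₐ[A₀] K₀⟮x⟯).toRingHom.toAlgebra

theorem polyAlgK_apply (p : A₀[X]) :
    letI := polyAlgK (A₀ := A₀) (K₀ := K₀) x
    algebraMap K₀⟮x⟯ F (algebraMap A₀[X] K₀⟮x⟯ p) = Polynomial.aeval x p := by
  letI := polyAlgK (A₀ := A₀) (K₀ := K₀) x
  haveI := adjoin_tower (A₀ := A₀) (K₀ := K₀) x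
  change ((Polynomial.aeval (AdjoinSimple.gen K₀ x) p : K₀⟮x⟯) : F) = _
  have h := Polynomial.aeval_algebraMap_apply (R := A₀) (A := K₀⟮x⟯) (B := F)
    (AdjoinSimple.gen K₀ x) p
  rw [AdjoinSimple.algebraMap_gen] at h
  exact h.symm

variable [IsDomain A₀] [IsFractionRing A₀ K₀]

theorem aeval_injective (hx : Transcendental K₀ x) :
    Function.Injective (Polynomial.aeval x : A₀[X] →ₐ[A₀] F) := by
  rw [injective_iff_map_eq_zero]
  intro p hp
  have h1 : Polynomial.aeval x (p.map (algebraMap A₀ K₀)) = 0 := by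
    rw [Polynomial.aeval_map_algebraMap]; exact hp
  have h2 := (transcendental_iff.1 hx) _ h1
  exact (Polynomial.map_eq_zero_iff (IsFractionRing.injective A₀ K₀)).1 h2

/-- `K₀(x)` is the fraction field of `A₀[X]` (`X ↦ x`) when `x` is transcendental. -/
theorem isFractionRing_adjoin (hx : Transcendental K₀ x) :
    letI := polyAlgK (A₀ := A₀) (K₀ := K₀) x
    IsFractionRing A₀[X] K₀⟮x⟯ := by
  letI := polyAlgK (A₀ := A₀) (K₀ := K₀) x
  haveI : FaithfulSMul A₀[X] K₀⟮x⟯ := by
    rw [faithfulSMul_iff_algebraMap_injective]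
    intro p q hpq
    apply aeval_injective (K₀ := K₀) x hx
    have := congrArg (algebraMap K₀⟮x⟯ F) hpq
    simpa only [polyAlgK_apply] using this
  refine IsFractionRing.of_field _ _ fun z => ?_
  obtain ⟨r, s, hrs⟩ := (IntermediateField.mem_adjoin_simple_iff K₀ (z : F)).1 z.2
  obtain ⟨br, hbr, hr⟩ := IsLocalization.integerNormalization_spec (nonZeroDivisors A₀) r
  obtain ⟨bs, hbs, hs⟩ := IsLocalization.integerNormalization_spec (nonZeroDivisors A₀) s
  set r' := IsLocalization.integerNormalization (nonZeroDivisors A₀) r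
  set s' := IsLocalization.integerNormalization (nonZeroDivisors A₀) s
  have hr' : Polynomial.aeval x r' = algebraMap A₀ F br * Polynomial.aeval x r := by
    rw [← Polynomial.aeval_map_algebraMap K₀ x r', hr, ← IsScalarTower.algebraMap_smul K₀ br r,
      Polynomial.smul_eq_C_mul, map_mul, Polynomial.aeval_C,
      ← IsScalarTower.algebraMap_apply A₀ K₀ F]
  have hs' : Polynomial.aeval x s' = algebraMap A₀ F bs * Polynomial.aeval x s := by
    rw [← Polynomial.aeval_map_algebraMap K₀ x s', hs, ← IsScalarTower.algebraMap_smul K₀ bs s,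
      Polynomial.smul_eq_C_mul, map_mul, Polynomial.aeval_C,
      ← IsScalarTower.algebraMap_apply A₀ K₀ F]
  have hinj : Function.Injective (algebraMap A₀ F) := by
    rw [IsScalarTower.algebraMap_eq A₀ K₀ F]
    exact (algebraMap K₀ F).injective.comp (IsFractionRing.injective A₀ K₀)
  have hbr0 : algebraMap A₀ F br ≠ 0 := fun h =>
    nonZeroDivisors.ne_zero hbr (hinj (h.trans (map_zero _).symm))
  have hbs0 : algebraMap A₀ F bs ≠ 0 := fun h =>
    nonZeroDivisors.ne_zero hbs (hinj (h.trans (map_zero _).symm))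
  refine ⟨Polynomial.C bs * r', Polynomial.C br * s', Subtype.ext ?_⟩
  have e : ∀ a b : K₀⟮x⟯, ((a / b : K₀⟮x⟯) : F) = (a : F) / (b : F) := fun a b => rfl
  have e' : ∀ p : A₀[X], ((algebraMap A₀[X] K₀⟮x⟯ p : K₀⟮x⟯) : F) = Polynomial.aeval x p :=
    polyAlgK_apply (K₀ := K₀) x
  rw [e, e', e', hrs, map_mul, map_mul, Polynomial.aeval_C, Polynomial.aeval_C, hr', hs']
  field_simp

end Adjoin

end Fermat.Agent.S18.H95
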