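/-
S18 / core 2, task K2-CH-D (helper95): the three generic chart leaves of helper19's `Core2.lean`,
VERBATIM, on the landed definitions `H19.ratSub`, `H19.DSetup`, `H19.chart`:
`chart_isIntegrallyClosed`, `chart_fin`, `chart_frac`
(plus the `A₀[X]`-module facts about the chart needed by `theoremD_chart`).
-/
import Fermat.Agent.S18.H19.Core2Defs
import Fermat.Agent.S18.H95.ChartPkg

set_option autoImplicit false
set_option linter.unusedSectionVars false

open Polynomial

noncomputable section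

namespace Fermat.Agent.S18.H95

open Fermat.Agent.S18.H19

section Chart

variable {A₀ : Type*} [CommRing A₀] [IsDomain A₀] [IsDiscreteValuationRing A₀] [CharZero A₀]
  {F₀ : Type*} [Field F₀] [Algebra A₀ F₀] [FaithfulSMul A₀ F₀]
  (O₀ : ValuationSubring F₀) (x : F₀)

/-- CH-D (generic), verbatim. -/
theorem chart_isIntegrallyClosed' : IsIntegrallyClosed ↥(chart A₀ x) :=
  isIntegrallyClosed_chart x

/-- CH-D (generic finiteness of the integral closure; char 0), verbatim. -/
theorem chart_fin (hS : DSetup A₀ O₀ x) :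
    ∃ s : Finset F₀, (chart A₀ x : Set F₀) =
      Submodule.span (Algebra.adjoin A₀ ({x} : Set F₀)) (s : Set F₀) :=
  chart_fin_sub x hS.transc hS.finite

/-- CH-D (generic), verbatim. -/
theorem chart_frac (hS : DSetup A₀ O₀ x) :
    ∀ y : F₀, ∃ a ∈ chart A₀ x, ∃ b ∈ chart A₀ x, b ≠ 0 ∧ y = a / b :=
  chart_frac_sub x hS.transc hS.finite

/-- The `A₀[X]`-algebra structure `X ↦ x` on `H19.chart A₀ x` (use with `letI`). -/
abbrev chartAlg : Algebra A₀[X] ↥(chart A₀ x) := chartAlgebra (A₀ := A₀) x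

theorem chartAlg_apply (p : A₀[X]) :
    letI := chartAlg (A₀ := A₀) x
    ((algebraMap A₀[X] ↥(chart A₀ x) p : ↥(chart A₀ x)) : F₀) = Polynomial.aeval x p :=
  chartAlgebra_apply x p

theorem chartAlg_apply' (p : A₀[X]) :
    letI := chartAlg (A₀ := A₀) x
    algebraMap A₀[X] ↥(chart A₀ x) p =
      Polynomial.aeval (⟨x, self_mem_chart A₀ x⟩ : ↥(chart A₀ x)) p := rfl

theorem chart_moduleFinite (hS : DSetup A₀ O₀ x) :
    letI := chartAlg (A₀ := A₀) x
    Module.Finite A₀[X] ↥(chart A₀ x) :=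
  chart_finite_sub x hS.transc hS.finite

theorem chart_isTorsionFree (hS : DSetup A₀ O₀ x) :
    letI := chartAlg (A₀ := A₀) x
    Module.IsTorsionFree A₀[X] ↥(chart A₀ x) :=
  chart_torsionFree_sub x hS.transc

theorem chart_fractionRing (hS : DSetup A₀ O₀ x) : IsFractionRing ↥(chart A₀ x) F₀ :=
  chart_isFractionRing_sub x hS.transc hS.finite

/-- `K₀(x) = ratSub A₀ x` is the fraction field of `A₀[X]` (`X ↦ x`). -/
abbrev ratSubAlg : Algebra A₀[X] ↥(ratSub A₀ x) := polyAlgSub (A₀ := A₀) x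

theorem ratSubAlg_apply (p : A₀[X]) :
    letI := ratSubAlg (A₀ := A₀) x
    ((algebraMap A₀[X] ↥(ratSub A₀ x) p : ↥(ratSub A₀ x)) : F₀) = Polynomial.aeval x p := rfl

theorem ratSub_isFractionRing (hS : DSetup A₀ O₀ x) :
    letI := ratSubAlg (A₀ := A₀) x
    IsFractionRing A₀[X] ↥(ratSub A₀ x) :=
  isFractionRing_sub x hS.transc

end Chart

end Fermat.Agent.S18.H95
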