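/-
S18 / core 2, task K2-D (helper95): `theoremD_chart` of helper19's `Core2.lean`, VERBATIM,
from the landed abstract Theorem D (`H8.theoremD`) and the landed chart package
(`H95/ChartPkg.lean`, `H95/ChartD.lean`).

Translation steps:
* `hprime` + `hone`  ⟹  `ϖ C` is a prime ideal (`hdom`);
* the trace condition over `ratSub A₀ x` ⟹ the `Algebra.intTrace` condition (`hsep`),
  by `Algebra.algebraMap_intTrace`;
* the elementwise unramifiedness condition ⟹ the `Localization.AtPrime` form (`hram`);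
* `C/ϖ` integrally closed ⟹ `C/ϖ` Dedekind (noetherian, integral over the PID `A₀[X]/ϖ`).
-/
import Fermat.Agent.S18.H8.TheoremDFinal
import Fermat.Agent.S18.H82.QuotPID
import Fermat.Agent.S18.H95.ChartD

set_option autoImplicit false
set_option linter.style.haveILetI false
set_option linter.unusedSectionVars false

open Polynomial

noncomputable section

namespace Fermat.Agent.S18.H95

open Fermat.Agent.S18.H19

/-! ### integrally closed special fibre ⟹ Dedekind special fibre (abstract) -/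

section Dedekind

variable {A₀ : Type*} [CommRing A₀] [IsDomain A₀] [IsDiscreteValuationRing A₀]
  {C' : Type*} [CommRing C'] [Algebra A₀[X] C'] [Module.Finite A₀[X] C']

theorem isDedekindDomain_quotient (ϖ : A₀) (hϖ : Irreducible ϖ)
    (hdom : (Ideal.span {algebraMap A₀[X] C' (Polynomial.C ϖ)}).IsPrime)
    (hic : IsIntegrallyClosed (C' ⧸ Ideal.span {algebraMap A₀[X] C' (Polynomial.C ϖ)})) :
    IsDedekindDomain (C' ⧸ Ideal.span {algebraMap A₀[X] C' (Polynomial.C ϖ)}) := by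
  have hI : (Ideal.span {(C ϖ : A₀[X])}).map (algebraMap A₀[X] C')
      = Ideal.span {algebraMap A₀[X] C' (C ϖ)} := by
    rw [Ideal.map_span, Set.image_singleton]
  revert hdom hic
  rw [← hI]
  intro hdom hic
  haveI := hdom
  haveI : IsDomain (C' ⧸ (Ideal.span {(C ϖ : A₀[X])}).map (algebraMap A₀[X] C')) :=
    Ideal.Quotient.isDomain _
  obtain ⟨hRdom, hRpid⟩ := Fermat.Agent.S18.H82.quotient_isDomain_isPrincipalIdealRing ϖ hϖ
  haveI : IsNoetherianRing C' :=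
    isNoetherian_of_tower A₀[X] (isNoetherian_of_isNoetherianRing_of_finite A₀[X] C')
  haveI : Algebra.IsIntegral A₀[X]
      (C' ⧸ (Ideal.span {(C ϖ : A₀[X])}).map (algebraMap A₀[X] C')) := inferInstance
  haveI : Algebra.IsIntegral (A₀[X] ⧸ Ideal.span {(C ϖ : A₀[X])})
      (C' ⧸ (Ideal.span {(C ϖ : A₀[X])}).map (algebraMap A₀[X] C')) :=
    Algebra.IsIntegral.tower_top (R := A₀[X])
  haveI : Ring.DimensionLEOne (C' ⧸ (Ideal.span {(C ϖ : A₀[X])}).map (algebraMap A₀[X] C')) :=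
    Ring.DimensionLEOne.of_isIntegral (A₀[X] ⧸ Ideal.span {(C ϖ : A₀[X])}) _
  haveI : IsDedekindRing (C' ⧸ (Ideal.span {(C ϖ : A₀[X])}).map (algebraMap A₀[X] C')) :=
    (isDedekindRing_iff (C' ⧸ (Ideal.span {(C ϖ : A₀[X])}).map (algebraMap A₀[X] C'))
      (FractionRing (C' ⧸ (Ideal.span {(C ϖ : A₀[X])}).map (algebraMap A₀[X] C')))).2
      ⟨inferInstance, inferInstance, fun {_} =>
        (isIntegrallyClosed_iff
          (FractionRing (C' ⧸ (Ideal.span {(C ϖ : A₀[X])}).map (algebraMap A₀[X] C')))).1 hic⟩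
  infer_instance

end Dedekind

/-! ### `theoremD_chart` -/

section Chart

variable {A₀ : Type*} [CommRing A₀] [IsDomain A₀] [IsDiscreteValuationRing A₀] [CharZero A₀]
  {F₀ : Type*} [Field F₀] [Algebra A₀ F₀] [FaithfulSMul A₀ F₀] (x : F₀)

/-- Divisibility by a constant in the chart, in the language of `Core2.lean`. -/
theorem chart_dvd_iff (ϖ : A₀) (c : ↥(chart A₀ x)) :
    algebraMap A₀ ↥(chart A₀ x) ϖ ∣ c ↔ ∃ c' ∈ chart A₀ x, (c : F₀) = ϖ • c' := by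
  constructor
  · rintro ⟨d, rfl⟩
    exact ⟨d, d.2, by rw [Algebra.smul_def]; rfl⟩
  · rintro ⟨c', hc', h⟩
    refine ⟨⟨c', hc'⟩, Subtype.ext ?_⟩
    rw [h, Algebra.smul_def]; rfl

end Chart

/-- **Theorem D** (chart form), statement of `Core2.lean` verbatim. -/
theorem theoremD_chart
    {A₀ : Type*} [CommRing A₀] [IsDomain A₀] [IsDiscreteValuationRing A₀] [CharZero A₀]
    (ϖ : A₀) (hϖ : Irreducible ϖ)
    {F₀ : Type*} [Field F₀] [Algebra A₀ F₀] [FaithfulSMul A₀ F₀] (x : F₀)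
    (htr : Transcendental A₀ x) (hfin : Module.Finite (ratSub A₀ x) F₀)
    (hprime : ∀ a ∈ chart A₀ x, ∀ b ∈ chart A₀ x, (∃ c ∈ chart A₀ x, a * b = ϖ • c) →
      (∃ c ∈ chart A₀ x, a = ϖ • c) ∨ (∃ c ∈ chart A₀ x, b = ϖ • c))
    (hone : ¬ ∃ c ∈ chart A₀ x, (1 : F₀) = ϖ • c)
    (hsep : ∀ c ∈ chart A₀ x,
      (∀ c' ∈ chart A₀ x, ∃ q : A₀[X],
        ((Algebra.trace (ratSub A₀ x) F₀ (c * c') : ratSub A₀ x) : F₀) =
          Polynomial.aeval x (Polynomial.C ϖ * q)) →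
      ∃ c'' ∈ chart A₀ x, c = ϖ • c'')
    (S : Finset A₀) (hS : ∀ a ∈ S, ∀ b ∈ S, a ≠ b → IsUnit (a - b))
    (hram : ∀ 𝔮 : Ideal ↥(chart A₀ x), 𝔮.IsPrime → 𝔮 ≠ ⊥ →
        algebraMap A₀ ↥(chart A₀ x) ϖ ∉ 𝔮 →
        (∀ a ∈ S, (⟨x, self_mem_chart A₀ x⟩ - algebraMap A₀ ↥(chart A₀ x) a) ∉ 𝔮) →
        ∃ g : A₀[X], Polynomial.aeval (⟨x, self_mem_chart A₀ x⟩ : ↥(chart A₀ x)) g ∈ 𝔮 ∧
          ∀ t ∈ 𝔮, ∃ s ∉ 𝔮, ∃ c : ↥(chart A₀ x),
            s * t = Polynomial.aeval (⟨x, self_mem_chart A₀ x⟩ : ↥(chart A₀ x)) g * c) :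
    IsDedekindDomain (↥(chart A₀ x) ⧸ Ideal.span {algebraMap A₀ ↥(chart A₀ x) ϖ}) := by
  letI := chartAlg (A₀ := A₀) x
  letI := polyAlgF (A₀ := A₀) x
  letI := ratSubAlg (A₀ := A₀) x
  haveI : Module.Finite A₀[X] ↥(chart A₀ x) := chart_finite_sub x htr hfin
  haveI : Module.IsTorsionFree A₀[X] ↥(chart A₀ x) := chart_torsionFree_sub x htr
  haveI : IsIntegrallyClosed ↥(chart A₀ x) := isIntegrallyClosed_chart x
  haveI : IsFractionRing A₀[X] ↥(ratSub A₀ x) := isFractionRing_sub x htr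
  haveI : FiniteDimensional ↥(ratSub A₀ x) F₀ := hfin
  haveI : IsScalarTower A₀[X] ↥(ratSub A₀ x) F₀ :=
    poly_tower x ↥(ratSub A₀ x) (polyAlgSub_apply x)
  haveI : IsScalarTower A₀[X] ↥(chart A₀ x) F₀ :=
    chart_tower x (chart A₀ x) (chartAlgebra_apply x)
  haveI : IsIntegralClosure ↥(chart A₀ x) A₀[X] F₀ :=
    chart_isIntegralClosure x (chart A₀ x) (fun _ => Iff.rfl)
  have hCϖ : algebraMap A₀[X] ↥(chart A₀ x) (Polynomial.C ϖ) =
      algebraMap A₀ ↥(chart A₀ x) ϖ := by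
    rw [chartAlg_apply']; exact Polynomial.aeval_C _ _
  have hXa : ∀ a : A₀, algebraMap A₀[X] ↥(chart A₀ x) (X - Polynomial.C a) =
      (⟨x, self_mem_chart A₀ x⟩ : ↥(chart A₀ x)) - algebraMap A₀ ↥(chart A₀ x) a := by
    intro a
    rw [chartAlg_apply', map_sub, Polynomial.aeval_X, Polynomial.aeval_C]
  rw [← hCϖ]
  -- `ϖ C` is prime
  have hp : Prime (algebraMap A₀ ↥(chart A₀ x) ϖ) := by
    refine ⟨?_, ?_, ?_⟩
    · intro h0
      have h1 : algebraMap A₀ F₀ ϖ = 0 := congrArg (fun c : ↥(chart A₀ x) => (c : F₀)) h0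
      exact hϖ.ne_zero
        (FaithfulSMul.algebraMap_injective A₀ F₀ (h1.trans (map_zero _).symm))
    · intro hu
      obtain ⟨c', hc', h⟩ := (chart_dvd_iff x ϖ 1).1 hu.dvd
      exact hone ⟨c', hc', h⟩
    · intro a b hab
      obtain ⟨c, hc, h⟩ := (chart_dvd_iff x ϖ (a * b)).1 hab
      rcases hprime a a.2 b b.2 ⟨c, hc, h⟩ with ⟨c', hc', h'⟩ | ⟨c', hc', h'⟩
      · exact Or.inl ((chart_dvd_iff x ϖ a).2 ⟨c', hc', h'⟩)
      · exact Or.inr ((chart_dvd_iff x ϖ b).2 ⟨c', hc', h'⟩)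
  have hdom : (Ideal.span {algebraMap A₀[X] ↥(chart A₀ x) (Polynomial.C ϖ)}).IsPrime := by
    rw [hCϖ]
    exact (Ideal.span_singleton_prime hp.ne_zero).2 hp
  refine isDedekindDomain_quotient ϖ hϖ hdom ?_
  refine Fermat.Agent.S18.H8.theoremD ϖ hϖ hdom ?_ S hS 1 ⟨1, isUnit_one, by simp⟩ ?_
  · -- separability
    intro c hc
    rw [hCϖ]
    refine (chart_dvd_iff x ϖ c).2 (hsep c c.2 fun c' hc' => ?_)
    obtain ⟨q, hq⟩ := hc ⟨c', hc'⟩
    refine ⟨q, ?_⟩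
    have h1 := Algebra.algebraMap_intTrace (A := A₀[X]) (K := ↥(ratSub A₀ x)) (L := F₀)
      (B := ↥(chart A₀ x)) (c * ⟨c', hc'⟩)
    rw [hq] at h1
    have h2 : algebraMap ↥(chart A₀ x) F₀ (c * ⟨c', hc'⟩) = (c : F₀) * c' := rfl
    rw [h2] at h1
    rw [← h1]
    rfl
  · -- unramifiedness
    intro 𝔮 h𝔮 h0 h1 h2 _
    obtain ⟨g, hg𝔮, hgen⟩ := hram 𝔮 h𝔮 h0 (hCϖ ▸ h1)
      (fun a ha => by have := h2 a ha; rwa [hXa] at this)
    refine ⟨g, ?_⟩
    rw [← Localization.AtPrime.map_eq_maximalIdeal]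
    apply le_antisymm
    · refine Ideal.map_le_iff_le_comap.2 fun t ht => ?_
      obtain ⟨s, hs, c, hsc⟩ := hgen t ht
      have hu : IsUnit (algebraMap ↥(chart A₀ x) (Localization.AtPrime 𝔮) s) :=
        IsLocalization.map_units (Localization.AtPrime 𝔮) (⟨s, hs⟩ : 𝔮.primeCompl)
      rw [Ideal.mem_comap, Ideal.mem_span_singleton]
      refine (IsUnit.dvd_mul_left hu).1 ⟨algebraMap _ _ c, ?_⟩
      rw [← map_mul, hsc, map_mul]
      rfl
    · rw [Ideal.span_singleton_le_iff_mem]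
      exact Ideal.mem_map_of_mem _ hg𝔮

end Fermat.Agent.S18.H95
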